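/-
S25 / SC0 item A1 (helper830 sub-skeleton `SC0/Skel830.lean`): local rings at maximal ideals of a
finitely generated domain over an algebraically closed field, locally standard smooth of relative
dimension one, are discrete valuation rings.  Mathlib only.  Author: helper8365.
-/
import Mathlib

set_option autoImplicit false

universe u

namespace Fermat.Agent.S25.TWIST.G1.H3108.D588.Dep8365.A1

open IsLocalRing TensorProduct KaehlerDifferential

/-- Kähler differentials of a formally étale extension of a standard smooth algebra of relative
dimension one are free of rank one. -/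
theorem free_finrank_kaehler_of_formallyEtale
    (k B R : Type*) [CommRing k] [CommRing B] [Algebra k B] [CommRing R] [Algebra k R]
    [Algebra B R] [IsScalarTower k B R] [Nontrivial R]
    [Algebra.IsStandardSmoothOfRelativeDimension 1 k B] [Algebra.FormallyEtale B R] :
    Module.Free R Ω[R⁄k] ∧ Module.finrank R Ω[R⁄k] = 1 := by
  have : Nontrivial B := (algebraMap B R).domain_nontrivial
  have : Algebra.IsStandardSmooth k B :=
    Algebra.IsStandardSmoothOfRelativeDimension.isStandardSmooth 1
  have : Module.Free B Ω[B⁄k] := Algebra.IsStandardSmooth.free_kaehlerDifferential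
  have hr : Module.rank B Ω[B⁄k] = 1 := by
    simpa using Algebra.IsStandardSmoothOfRelativeDimension.rank_kaehlerDifferential (R := k) (S := B) 1
  have hf : Module.finrank B Ω[B⁄k] = 1 := by
    simp [Module.finrank, hr]
  let e := tensorKaehlerEquivOfFormallyEtale k B R
  refine ⟨Module.Free.of_equiv e, ?_⟩
  rw [← e.finrank_eq, Module.finrank_baseChange, hf]

theorem finrank_cotangent_aux {R N : Type*} [CommRing R] [IsLocalRing R]
    [AddCommGroup N] [Module R N] [Module (ResidueField R) N] [IsScalarTower R (ResidueField R) N]
    (I : Ideal R) (hI : I = maximalIdeal R) (φ : I.Cotangent →ₗ[R] N) (hφ : Function.Bijective φ) :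
    Module.finrank (ResidueField R) (CotangentSpace R) = Module.finrank (ResidueField R) N := by
  subst hI
  exact (LinearEquiv.extendScalarsOfSurjective (S := ResidueField R) Ideal.Quotient.mk_surjective
    (LinearEquiv.ofBijective φ hφ)).finrank_eq

/-- For a local `k`-algebra `R`, formally smooth over `k`, with residue field `k`, the cotangent
space has the dimension of the (free) module of Kähler differentials. -/
theorem finrank_cotangentSpace_eq_finrank_kaehler
    (k R : Type*) [Field k] [CommRing R] [IsLocalRing R] [Algebra k R] [Algebra.FormallySmooth k R]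
    (hκ : Function.Bijective (algebraMap k (ResidueField R)))
    [Module.Free R Ω[R⁄k]] :
    Module.finrank (ResidueField R) (CotangentSpace R) = Module.finrank R Ω[R⁄k] := by
  have hsurj : Function.Surjective (algebraMap R (ResidueField R)) := Ideal.Quotient.mk_surjective
  have : Algebra.FormallySmooth k (ResidueField R) :=
    Algebra.FormallySmooth.of_equiv (AlgEquiv.ofBijective (Algebra.ofId k (ResidueField R)) hκ)
  obtain ⟨l, hl⟩ := (Algebra.FormallySmooth.iff_split_injection (R := k) (P := R)
    (A := ResidueField R) hsurj).mp inferInstance
  have hinj : Function.Injective (kerCotangentToTensor k R (ResidueField R)) := by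
    intro x y hxy
    have := congrArg l hxy
    have h1 := LinearMap.congr_fun hl x
    have h2 := LinearMap.congr_fun hl y
    simp only [LinearMap.coe_comp, Function.comp_apply, LinearMap.id_coe, id_eq] at h1 h2
    rw [← h1, ← h2, this]
  have hex := exact_kerCotangentToTensor_mapBaseChange k R (ResidueField R) hsurj
  have hsub : Subsingleton Ω[ResidueField R⁄k] :=
    KaehlerDifferential.subsingleton_of_surjective k (ResidueField R) hκ.surjective
  have hsur : Function.Surjective (kerCotangentToTensor k R (ResidueField R)) := by
    intro y
    exact (hex y).mp (Subsingleton.elim _ _)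
  have hI : RingHom.ker (algebraMap R (ResidueField R)) = maximalIdeal R := ker_residue
  rw [finrank_cotangent_aux _ hI (kerCotangentToTensor k R (ResidueField R)) ⟨hinj, hsur⟩,
    Module.finrank_baseChange]

end Fermat.Agent.S25.TWIST.G1.H3108.D588.Dep8365.A1

namespace Fermat.Agent.S25.TWIST.G1.H3108.D588.Dep8365.A1

open IsLocalRing TensorProduct KaehlerDifferential

/-- For a finitely generated algebra over an algebraically closed field, the residue field at a
maximal ideal is `k`. -/
theorem bijective_algebraMap_quotient_of_isMaximal
    (k A : Type*) [Field k] [IsAlgClosed k] [CommRing A] [Algebra k A] [Algebra.FiniteType k A]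
    (m : Ideal A) [hm : m.IsMaximal] : Function.Bijective (algebraMap k (A ⧸ m)) := by
  let _ : Field (A ⧸ m) := Ideal.Quotient.field m
  have : Algebra.FiniteType k (A ⧸ m) :=
    Algebra.FiniteType.of_surjective (Ideal.Quotient.mkₐ k m) Ideal.Quotient.mk_surjective
  have : Module.Finite k (A ⧸ m) := finite_of_finite_type_of_isJacobsonRing k (A ⧸ m)
  have : Algebra.IsIntegral k (A ⧸ m) := Algebra.IsIntegral.of_finite k (A ⧸ m)
  exact IsAlgClosed.algebraMap_bijective_of_isIntegral

theorem residue_algebraMap_eq_of_mem
    (k A : Type*) [Field k] [CommRing A] [Algebra k A]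
    (m : Ideal A) [hm : m.IsMaximal] (a : A) (c : k)
    (h : Ideal.Quotient.mk m a = algebraMap k (A ⧸ m) c) :
    residue (Localization.AtPrime m) (algebraMap A (Localization.AtPrime m) a) =
      algebraMap k (ResidueField (Localization.AtPrime m)) c := by
  rw [IsScalarTower.algebraMap_apply k (Localization.AtPrime m) (ResidueField (Localization.AtPrime m)),
      IsScalarTower.algebraMap_apply k A (Localization.AtPrime m)]
  change residue _ _ = residue _ _
  rw [← sub_eq_zero, ← map_sub, ← map_sub, residue_eq_zero_iff]
  rw [IsScalarTower.algebraMap_apply k A (A ⧸ m), Ideal.Quotient.algebraMap_eq, eq_comm,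
    ← sub_eq_zero, ← map_sub, Ideal.Quotient.eq_zero_iff_mem] at h
  have h' : a - algebraMap k A c ∈ m := by
    have := m.neg_mem h
    simpa using this
  have := Ideal.mem_map_of_mem (algebraMap A (Localization.AtPrime m)) h'
  rwa [Localization.AtPrime.map_eq_maximalIdeal] at this

theorem bijective_algebraMap_residueField_atPrime
    (k A : Type*) [Field k] [IsAlgClosed k] [CommRing A] [Algebra k A] [Algebra.FiniteType k A]
    (m : Ideal A) [hm : m.IsMaximal] :
    Function.Bijective (algebraMap k (ResidueField (Localization.AtPrime m))) := by
  have h1 := bijective_algebraMap_quotient_of_isMaximal k A m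
  refine ⟨(algebraMap k (ResidueField (Localization.AtPrime m))).injective, ?_⟩
  intro x
  obtain ⟨r, rfl⟩ := residue_surjective x
  obtain ⟨a, s, rfl⟩ := IsLocalization.exists_mk'_eq m.primeCompl r
  obtain ⟨c, hc⟩ := h1.surjective (Ideal.Quotient.mk m a)
  obtain ⟨d, hd⟩ := h1.surjective (Ideal.Quotient.mk m (s : A))
  have hd0 : d ≠ 0 := by
    rintro rfl
    rw [map_zero, eq_comm, Ideal.Quotient.eq_zero_iff_mem] at hd
    exact s.2 hd
  have ha := residue_algebraMap_eq_of_mem k A m a c hc.symm
  have hs := residue_algebraMap_eq_of_mem k A m (s : A) d hd.symm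
  refine ⟨c / d, ?_⟩
  have hmul : residue (Localization.AtPrime m) (IsLocalization.mk' (Localization.AtPrime m) a s) *
      residue (Localization.AtPrime m) (algebraMap A (Localization.AtPrime m) (s : A)) =
      residue (Localization.AtPrime m) (algebraMap A (Localization.AtPrime m) a) := by
    rw [← map_mul, IsLocalization.mk'_spec]
  rw [ha, hs] at hmul
  have hd' : algebraMap k (ResidueField (Localization.AtPrime m)) d ≠ 0 := by
    simpa using hd0
  rw [map_div₀, div_eq_iff hd', hmul]

end Fermat.Agent.S25.TWIST.G1.H3108.D588.Dep8365.A1

namespace Fermat.Agent.S25.TWIST.G1.H3108.D588.Dep8365.A1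

open IsLocalRing TensorProduct KaehlerDifferential

/-- Local rings at maximal ideals of a finitely generated domain over an algebraically closed
field which is locally standard smooth of relative dimension one are discrete valuation rings. -/
theorem isDiscreteValuationRing_atPrime
    (k : Type u) [Field k] [IsAlgClosed k] (A : Type u) [CommRing A] [IsDomain A] [Algebra k A]
    [Algebra.FiniteType k A]
    (h : RingHom.Locally (RingHom.IsStandardSmoothOfRelativeDimension 1) (algebraMap k A))
    (m : Ideal A) [hm : m.IsMaximal] : IsDiscreteValuationRing (Localization.AtPrime m) := by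
  obtain ⟨s, hs, hP⟩ := h
  obtain ⟨t, hts, htm⟩ : ∃ t ∈ s, t ∉ m := by
    by_contra hcon
    push Not at hcon
    have : Ideal.span s ≤ m := Ideal.span_le.mpr hcon
    rw [hs] at this
    exact hm.ne_top (top_le_iff.mp this)
  have hB := hP t hts
  rw [← IsScalarTower.algebraMap_eq, RingHom.isStandardSmoothOfRelativeDimension_algebraMap] at hB
  set B := Localization.Away t
  set R := Localization.AtPrime m
  have hunit : IsUnit (algebraMap A R t) :=
    IsLocalization.map_units R (⟨t, htm⟩ : m.primeCompl)
  let _ : Algebra B R := (IsLocalization.Away.lift (S := B) t hunit).toAlgebra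
  have hBR : (algebraMap B R).comp (algebraMap A B) = algebraMap A R :=
    IsLocalization.Away.lift_comp t hunit
  have : IsScalarTower A B R := IsScalarTower.of_algebraMap_eq' hBR.symm
  have : IsScalarTower k B R := by
    refine IsScalarTower.of_algebraMap_eq' ?_
    rw [IsScalarTower.algebraMap_eq k A R, ← hBR, RingHom.comp_assoc,
      ← IsScalarTower.algebraMap_eq k A B]
  have hle : Submonoid.powers t ≤ m.primeCompl := by
    rintro _ ⟨n, rfl⟩
    exact fun hmem => htm (hm.isPrime.mem_of_pow_mem n hmem)
  have : IsLocalization (Submonoid.map (algebraMap A B) m.primeCompl) R :=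
    IsLocalization.isLocalization_of_submonoid_le B R (Submonoid.powers t) m.primeCompl hle
  have hEt : Algebra.FormallyEtale B R :=
    Algebra.FormallyEtale.of_isLocalization (Submonoid.map (algebraMap A B) m.primeCompl)
  have : Algebra.IsStandardSmooth k B :=
    Algebra.IsStandardSmoothOfRelativeDimension.isStandardSmooth 1
  have : Algebra.FormallySmooth k R := Algebra.FormallySmooth.comp k B R
  obtain ⟨hfree, hrank⟩ := free_finrank_kaehler_of_formallyEtale k B R
  have hκ := bijective_algebraMap_residueField_atPrime k A m
  have : IsNoetherianRing A := Algebra.FiniteType.isNoetherianRing k A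
  have : IsNoetherianRing R := IsLocalization.isNoetherianRing m.primeCompl R inferInstance
  rw [← finrank_CotangentSpace_eq_one_iff, finrank_cotangentSpace_eq_finrank_kaehler k R hκ, hrank]

end Fermat.Agent.S25.TWIST.G1.H3108.D588.Dep8365.A1
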