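/-
S25 / SC0 item A2 (helper830 sub-skeleton `SC0/Skel830.lean`): a finitely generated domain over an
algebraically closed field which is locally standard smooth of relative dimension one is a
Dedekind domain and not a field.  Mathlib only (+ item A1).  Author: helper8365.
-/
import Fermat.Agent.S25.TWIST.G1.H3108.D588.A1_h8365

set_option autoImplicit false

universe u

namespace Fermat.Agent.S25.TWIST.G1.H3108.D588.Dep8365.A2

open IsLocalRing

variable (k : Type u) [Field k] [IsAlgClosed k] (A : Type u) [CommRing A] [IsDomain A]
  [Algebra k A] [Algebra.FiniteType k A]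

/-- `A` is not a field. -/
theorem not_isField
    (h : RingHom.Locally (RingHom.IsStandardSmoothOfRelativeDimension 1) (algebraMap k A)) :
    ¬ IsField A := by
  intro hF
  have hmax : (⊥ : Ideal A).IsMaximal := Ring.isField_iff_maximal_bot.mp hF
  have hdvr := A1.isDiscreteValuationRing_atPrime k A h ⊥
  apply IsDiscreteValuationRing.not_a_field (Localization.AtPrime (⊥ : Ideal A))
  rw [← Localization.AtPrime.map_eq_maximalIdeal, Ideal.map_bot]

/-- Every nonzero prime of `A` is maximal. -/
theorem isMaximal_of_isPrime_of_ne_bot
    (h : RingHom.Locally (RingHom.IsStandardSmoothOfRelativeDimension 1) (algebraMap k A))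
    (P : Ideal A) (hP : P.IsPrime) (hP0 : P ≠ ⊥) : P.IsMaximal := by
  obtain ⟨m, hm, hPm⟩ := Ideal.exists_le_maximal P hP.ne_top
  have hdvr := A1.isDiscreteValuationRing_atPrime k A h m
  set R := Localization.AtPrime m
  have hdisj : Disjoint (m.primeCompl : Set A) (P : Set A) := by
    rw [Set.disjoint_left]
    intro a ha haP
    exact ha (hPm haP)
  have hP' : (Ideal.map (algebraMap A R) P).IsPrime :=
    IsLocalization.isPrime_of_isPrime_disjoint m.primeCompl R P hP hdisj
  have hinj : Function.Injective (algebraMap A R) :=
    IsLocalization.injective R m.primeCompl_le_nonZeroDivisors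
  have hP'0 : Ideal.map (algebraMap A R) P ≠ ⊥ := by
    obtain ⟨a, haP, ha0⟩ := Submodule.exists_mem_ne_zero_of_ne_bot hP0
    intro hbot
    have hmem : algebraMap A R a ∈ Ideal.map (algebraMap A R) P := Ideal.mem_map_of_mem _ haP
    rw [hbot, Ideal.mem_bot] at hmem
    exact ha0 (hinj (by rw [hmem, map_zero]))
  have hmax' : (Ideal.map (algebraMap A R) P).IsMaximal := hP'.isMaximal hP'0
  have heq : Ideal.map (algebraMap A R) P = maximalIdeal R := eq_maximalIdeal hmax'
  have h1 : Ideal.under A (Ideal.map (algebraMap A R) P) = P :=
    IsLocalization.under_map_of_isPrime_disjoint m.primeCompl R hP hdisj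
  have h2 : Ideal.under A (maximalIdeal R) = m := Localization.AtPrime.under_maximalIdeal
  rw [heq, h2] at h1
  rw [← h1]
  exact hm

/-- **A2.** `A` is a Dedekind domain and not a field. -/
theorem isDedekindDomain_and_not_isField
    (h : RingHom.Locally (RingHom.IsStandardSmoothOfRelativeDimension 1) (algebraMap k A)) :
    IsDedekindDomain A ∧ ¬ IsField A := by
  refine ⟨?_, not_isField k A h⟩
  have hdvr : IsDedekindDomainDvr A :=
    { toIsNoetherian := Algebra.FiniteType.isNoetherianRing k A
      is_dvr_at_nonzero_prime := fun P hP0 hP => by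
        have := isMaximal_of_isPrime_of_ne_bot k A h P hP hP0
        exact A1.isDiscreteValuationRing_atPrime k A h P }
  infer_instance

end Fermat.Agent.S25.TWIST.G1.H3108.D588.Dep8365.A2
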