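/-
S25 library: local criteria for `Module.Invertible` (missing from Mathlib).
Author: helper5365.  Complete proofs.
-/
import Mathlib

set_option autoImplicit false

namespace Fermat.Agent.S25.TWIST.G1.H3108.D588.Dep5365

open TensorProduct

section contract

variable {R : Type*} [CommRing R] (S : Submonoid R)
variable (Rₛ : Type*) [CommRing Rₛ] [Algebra R Rₛ] [IsLocalization S Rₛ]
variable {M : Type*} [AddCommGroup M] [Module R M]
variable {Mₛ : Type*} [AddCommGroup Mₛ] [Module R Mₛ] [Module Rₛ Mₛ] [IsScalarTower R Rₛ Mₛ]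
variable (f : M →ₗ[R] Mₛ) [IsLocalizedModule S f]

/-- The localisation of the contraction map `Mᵛ ⊗ M → R` of a finitely presented module is
bijective as soon as the localised module is invertible. -/
theorem contract_localized_bijective [Module.FinitePresentation R M]
    [h : Module.Invertible Rₛ Mₛ] :
    Function.Bijective (IsLocalizedModule.map S
      (TensorProduct.map (IsLocalizedModule.mapExtendScalars S f (Algebra.linearMap R Rₛ) Rₛ) f)
      (Algebra.linearMap R Rₛ) (contractLeft R M)) := by
  let G : (Module.Dual Rₛ Mₛ) ⊗[R] Mₛ →ₗ[R] Rₛ :=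
    ((contractLeft Rₛ Mₛ).restrictScalars R) ∘ₗ
      ((IsLocalization.moduleTensorEquiv S Rₛ (Module.Dual Rₛ Mₛ) Mₛ).symm.restrictScalars
        R).toLinearMap
  have hG : IsLocalizedModule.map S
      (TensorProduct.map (IsLocalizedModule.mapExtendScalars S f (Algebra.linearMap R Rₛ) Rₛ) f)
      (Algebra.linearMap R Rₛ) (contractLeft R M) = G := by
    apply IsLocalizedModule.linearMap_ext S
      (TensorProduct.map (IsLocalizedModule.mapExtendScalars S f (Algebra.linearMap R Rₛ) Rₛ) f)
      (Algebra.linearMap R Rₛ)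
    rw [IsLocalizedModule.map_comp]
    ext φ m
    have e : ∀ (a : Module.Dual Rₛ Mₛ) (b : Mₛ),
        (IsLocalization.moduleTensorEquiv S Rₛ (Module.Dual Rₛ Mₛ) Mₛ).symm (a ⊗ₜ[R] b) =
          a ⊗ₜ[Rₛ] b := fun _ _ => rfl
    simp [G, e, IsLocalizedModule.mapExtendScalars_apply_apply, IsLocalizedModule.map_apply]
  rw [hG]
  exact h.bijective.comp (LinearEquiv.bijective _)

end contract

section global

variable {R : Type*} [CommRing R] {M : Type*} [AddCommGroup M] [Module R M]

/-- A finitely presented module all of whose localisations at maximal ideals are invertible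
is invertible (general localisations). -/
theorem invertible_of_isLocalized_maximal [Module.FinitePresentation R M]
    (Rₚ : ∀ (P : Ideal R) [P.IsMaximal], Type*)
    [∀ (P : Ideal R) [P.IsMaximal], CommRing (Rₚ P)]
    [∀ (P : Ideal R) [P.IsMaximal], Algebra R (Rₚ P)]
    [∀ (P : Ideal R) [P.IsMaximal], IsLocalization.AtPrime (Rₚ P) P]
    (Mₚ : ∀ (P : Ideal R) [P.IsMaximal], Type*)
    [∀ (P : Ideal R) [P.IsMaximal], AddCommGroup (Mₚ P)]
    [∀ (P : Ideal R) [P.IsMaximal], Module R (Mₚ P)]
    [∀ (P : Ideal R) [P.IsMaximal], Module (Rₚ P) (Mₚ P)]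
    [∀ (P : Ideal R) [P.IsMaximal], IsScalarTower R (Rₚ P) (Mₚ P)]
    (f : ∀ (P : Ideal R) [P.IsMaximal], M →ₗ[R] Mₚ P)
    [∀ (P : Ideal R) [P.IsMaximal], IsLocalizedModule.AtPrime P (f P)]
    (H : ∀ (P : Ideal R) [P.IsMaximal], Module.Invertible (Rₚ P) (Mₚ P)) :
    Module.Invertible R M := by
  refine ⟨bijective_of_isLocalized_maximal
    (fun P _ => Module.Dual (Rₚ P) (Mₚ P) ⊗[R] Mₚ P)
    (fun P _ => TensorProduct.map
      (IsLocalizedModule.mapExtendScalars P.primeCompl (f P) (Algebra.linearMap R (Rₚ P)) (Rₚ P))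
      (f P))
    (fun P _ => Rₚ P) (fun P _ => Algebra.linearMap R (Rₚ P)) (contractLeft R M) ?_⟩
  intro P _
  have := H P
  exact contract_localized_bijective P.primeCompl (Rₚ P) (f P)

/-- A finitely presented module all of whose localisations at maximal ideals are invertible
is invertible. -/
theorem invertible_of_localization_maximal [Module.FinitePresentation R M]
    (H : ∀ (P : Ideal R) [P.IsMaximal],
      Module.Invertible (Localization.AtPrime P) (LocalizedModule P.primeCompl M)) :
    Module.Invertible R M :=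
  invertible_of_isLocalized_maximal (fun P _ => Localization.AtPrime P)
    (fun P _ => LocalizedModule P.primeCompl M)
    (fun P _ => LocalizedModule.mkLinearMap P.primeCompl M) H

/-- A module which is invertible on a (Zariski) cover by basic opens is invertible
(general localisations). -/
theorem invertible_of_isLocalized_span (s : Set R) (hs : Ideal.span s = ⊤)
    {Mₚ : ∀ (_ : s), Type*} [∀ (g : s), AddCommGroup (Mₚ g)] [∀ (g : s), Module R (Mₚ g)]
    {Rₚ : ∀ (_ : s), Type*} [∀ (g : s), CommRing (Rₚ g)] [∀ (g : s), Algebra R (Rₚ g)]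
    [∀ (g : s), IsLocalization.Away g.val (Rₚ g)]
    [∀ (g : s), Module (Rₚ g) (Mₚ g)] [∀ (g : s), IsScalarTower R (Rₚ g) (Mₚ g)]
    (ϕ : ∀ (g : s), M →ₗ[R] Mₚ g) [∀ (g : s), IsLocalizedModule (Submonoid.powers g.val) (ϕ g)]
    (h : ∀ (g : s), Module.Invertible (Rₚ g) (Mₚ g)) :
    Module.Invertible R M := by
  have : Module.FinitePresentation R M :=
    Module.FinitePresentation.of_localizationSpan' s hs (Rₚ := Rₚ) ϕ (fun g => by
      have := h g
      exact Module.finitePresentation_of_projective _ _)
  refine ⟨bijective_of_isLocalized_span s hs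
    (fun g => Module.Dual (Rₚ g) (Mₚ g) ⊗[R] Mₚ g)
    (fun g => TensorProduct.map
      (IsLocalizedModule.mapExtendScalars (Submonoid.powers g.val) (ϕ g)
        (Algebra.linearMap R (Rₚ g)) (Rₚ g))
      (ϕ g))
    (fun g => Rₚ g) (fun g => Algebra.linearMap R (Rₚ g)) (contractLeft R M) ?_⟩
  intro g
  have := h g
  exact contract_localized_bijective (Submonoid.powers g.val) (Rₚ g) (ϕ g)

/-- A module which is invertible on a (Zariski) cover by basic opens is invertible. -/
theorem invertible_of_localization_span (s : Set R) (hs : Ideal.span s = ⊤)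
    (h : ∀ g : s, Module.Invertible (Localization.Away g.1) (LocalizedModule.Away g.1 M)) :
    Module.Invertible R M :=
  invertible_of_isLocalized_span s hs
    (fun g => LocalizedModule.mkLinearMap (Submonoid.powers g.1) M) h

end global

end Fermat.Agent.S25.TWIST.G1.H3108.D588.Dep5365
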