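/-
S25 library: an ideal which is locally generated by one "locally regular" element is an
invertible module.
Author: helper5365.  Complete proofs.
-/
import Fermat.Agent.S25.TWIST.G1.H3108.D588.InvertibleLocal

set_option autoImplicit false

namespace Fermat.Agent.S25.TWIST.G1.H3108.D588.Dep5365

open TensorProduct

section ideal

variable {B : Type*} [CommRing B]

/-- If, at a prime `P`, the ideal `I` is generated by `t ∈ I` up to denominators outside `P`,
and `t` is "regular up to denominators outside `P`", then the localisation of `I` at `P` is
free of rank one, with basis `t`. -/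
theorem localizedModule_ideal_invertible_of_generator (I : Ideal B) (P : Ideal B) [P.IsPrime]
    (t : B) (ht : t ∈ I)
    (hgen : ∀ x ∈ I, ∃ s ∉ P, ∃ r, s * x = r * t)
    (hreg : ∀ r, r * t = 0 → ∃ s ∉ P, s * r = 0) :
    Module.Invertible (Localization.AtPrime P) (LocalizedModule P.primeCompl I) := by
  let T : I := ⟨t, ht⟩
  let φ : Localization.AtPrime P →ₗ[Localization.AtPrime P] LocalizedModule P.primeCompl I :=
    LinearMap.toSpanSingleton _ _ (LocalizedModule.mk T 1)
  have hinj : Function.Injective φ := by
    rw [injective_iff_map_eq_zero]
    intro a ha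
    induction a using Localization.induction_on with
    | _ y =>
      obtain ⟨r, s⟩ := y
      have h1 : Localization.mk r s • LocalizedModule.mk T (1 : P.primeCompl) = 0 := by
        simpa [φ, LinearMap.toSpanSingleton_apply] using ha
      rw [LocalizedModule.mk_smul_mk, ← LocalizedModule.zero_mk (1 : P.primeCompl),
        LocalizedModule.mk_eq] at h1
      obtain ⟨u, hu⟩ := h1
      have h2 : ((u : B) * r) * t = 0 := by
        have := congrArg (Subtype.val) hu
        simp only [one_smul, smul_zero, Submonoid.smul_def, SetLike.val_smul, smul_eq_mul,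
          ZeroMemClass.coe_zero, T] at this
        rw [mul_assoc]; exact this
      obtain ⟨s', hs', hs'r⟩ := hreg _ h2
      show Localization.mk r s = 0
      rw [Localization.mk_eq_mk', IsLocalization.mk'_eq_zero_iff]
      exact ⟨⟨s' * u, P.primeCompl.mul_mem hs' u.2⟩, by
        simpa [mul_assoc] using hs'r⟩
  have hsurj : Function.Surjective φ := by
    intro y
    induction y using LocalizedModule.induction_on with
    | _ x s =>
      obtain ⟨s₁, hs₁, r, hr⟩ := hgen x.1 x.2
      refine ⟨Localization.mk r (⟨s₁, hs₁⟩ * s), ?_⟩
      show Localization.mk r (⟨s₁, hs₁⟩ * s) • LocalizedModule.mk T (1 : P.primeCompl) = _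
      rw [LocalizedModule.mk_smul_mk, mul_one]
      have : r • T = (⟨s₁, hs₁⟩ : P.primeCompl) • x := by
        apply Subtype.ext
        simp only [Submonoid.smul_def, SetLike.val_smul, smul_eq_mul, T]
        exact hr.symm
      rw [this, LocalizedModule.mk_cancel_common_left]
  exact Module.Invertible.congr (LinearEquiv.ofBijective φ ⟨hinj, hsurj⟩)

/-- An ideal (finitely presented as a module) which at every maximal ideal is generated by a
locally regular element is an invertible module. -/
theorem ideal_invertible_of_locally_principal (I : Ideal B) [Module.FinitePresentation B I]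
    (H : ∀ (P : Ideal B) [P.IsMaximal], ∃ t ∈ I,
      (∀ x ∈ I, ∃ s ∉ P, ∃ r, s * x = r * t) ∧ (∀ r, r * t = 0 → ∃ s ∉ P, s * r = 0)) :
    Module.Invertible B I := by
  apply invertible_of_localization_maximal
  intro P _
  obtain ⟨t, ht, hgen, hreg⟩ := H P
  exact localizedModule_ideal_invertible_of_generator I P t ht hgen hreg

end ideal

end Fermat.Agent.S25.TWIST.G1.H3108.D588.Dep5365
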