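/-
S25 library: the fibrewise criterion for an ideal to be locally principal generated by a
locally regular element ("relative effective Cartier divisors can be checked on fibres").
Author: helper5365.  Complete proofs.
-/
import Fermat.Agent.S25.TWIST.G1.H3108.D588.InvertibleIdeal

set_option autoImplicit false

namespace Fermat.Agent.S25.TWIST.G1.H3108.D588.Dep5365

open TensorProduct

section dettrick

variable {B : Type*} [CommRing B]

/-- Determinant trick with a multiplier: if `s • M ⊆ J • M` for a finite module `M`, with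
`J ⊆ 𝔫` and `s ∉ 𝔫` (`𝔫` prime), then some `s' ∉ 𝔫` kills `M`. -/
theorem exists_notMem_smul_eq_zero_of_smul_mem_smul {M : Type*} [AddCommGroup M] [Module B M]
    [Module.Finite B M] (𝔫 : Ideal B) [𝔫.IsPrime] (J : Ideal B) (hJ : J ≤ 𝔫) (s : B)
    (hs : s ∉ 𝔫) (H : ∀ m : M, s • m ∈ J • (⊤ : Submodule B M)) :
    ∃ s' ∉ 𝔫, ∀ m : M, s' • m = 0 := by
  obtain ⟨p, hmonic, -, hcoeff, hp⟩ :=
    LinearMap.exists_monic_and_natDegree_eq_and_coeff_mem_pow_and_aeval_eq_zero B
      (algebraMap B (Module.End B M) s) J (by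
        rintro _ ⟨m, rfl⟩
        simpa using H m)
  rw [Polynomial.aeval_algebraMap_apply] at hp
  refine ⟨Polynomial.aeval s p, ?_, fun m => ?_⟩
  · intro hmem
    have h1 : (p.map (Ideal.Quotient.mk 𝔫)) = Polynomial.X ^ p.natDegree := by
      ext k
      rw [Polynomial.coeff_map, Polynomial.coeff_X_pow]
      split_ifs with hk
      · rw [hk, hmonic.coeff_natDegree, map_one]
      · rcases lt_or_gt_of_ne hk with hlt | hgt
        · rw [Ideal.Quotient.eq_zero_iff_mem]
          exact hJ (Ideal.pow_le_self (by omega) (hcoeff k))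
        · rw [Polynomial.coeff_eq_zero_of_natDegree_lt hgt, map_zero]
    have h2 : Ideal.Quotient.mk 𝔫 (Polynomial.aeval s p) =
        (p.map (Ideal.Quotient.mk 𝔫)).eval (Ideal.Quotient.mk 𝔫 s) := by
      rw [Polynomial.eval_map, Polynomial.coe_aeval_eq_eval, Polynomial.eval₂_at_apply]
    rw [h1, Polynomial.eval_pow, Polynomial.eval_X, ← map_pow] at h2
    rw [← Ideal.Quotient.eq_zero_iff_mem, h2, Ideal.Quotient.eq_zero_iff_mem] at hmem
    exact hs (Ideal.IsPrime.mem_of_pow_mem inferInstance _ hmem)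
  · have := congrArg (fun f : Module.End B M => f m) hp
    simpa using this

end dettrick

section fibre

variable {S B : Type*} [CommRing S] [CommRing B] [Algebra S B]

/-- If the ideal `I` of the `S`-algebra `B` is an `S`-linear retract of `B`, then
`I ∩ 𝔪B = 𝔪I`. -/
theorem mem_smul_top_of_mem_map_of_retraction (I : Ideal B) (ρ : B →ₗ[S] I)
    (hρ : ∀ x : I, ρ x = x) (𝔪 : Ideal S) (y : I) (hy : (y : B) ∈ 𝔪.map (algebraMap S B)) :
    y ∈ (𝔪.map (algebraMap S B)) • (⊤ : Submodule B I) := by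
  have key : ∀ z : B, z ∈ 𝔪.map (algebraMap S B) →
      ρ z ∈ (𝔪.map (algebraMap S B)) • (⊤ : Submodule B I) := by
    intro z hz
    have hz' : z ∈ 𝔪 • (⊤ : Submodule S B) := by
      rw [Ideal.smul_top_eq_map]; exact hz
    refine Submodule.smul_induction_on hz' ?_ ?_
    · intro m hm b _
      rw [map_smul, ← algebraMap_smul B m (ρ b)]
      exact Submodule.smul_mem_smul (Ideal.mem_map_of_mem _ hm) Submodule.mem_top
    · intro x y hx hy
      rw [map_add]; exact Submodule.add_mem _ hx hy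
  have := key y hy
  rwa [hρ] at this

/-- **Fibrewise criterion.**  Let `B` be a noetherian flat `S`-algebra and `I` an ideal of `B`
which is an `S`-linear retract of `B` (e.g. `B ⧸ I` projective over `S`).  Let `𝔫` be a prime
of `B` containing `𝔪B`.  If `t ∈ I` generates `I` modulo `𝔪B` locally at `𝔫` and is regular
modulo `𝔪B` locally at `𝔫`, then `t` generates `I` locally at `𝔫` and is regular locally
at `𝔫`. -/
theorem fibre_criterion [IsNoetherianRing B] [Module.Flat S B]
    (I : Ideal B) (ρ : B →ₗ[S] I) (hρ : ∀ x : I, ρ x = x)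
    (𝔫 : Ideal B) [𝔫.IsPrime] (𝔪 : Ideal S) (h𝔪 : 𝔪.map (algebraMap S B) ≤ 𝔫)
    (t : B) (ht : t ∈ I)
    (ha : ∀ x ∈ I, ∃ s ∉ 𝔫, ∃ r, s * x - r * t ∈ 𝔪.map (algebraMap S B))
    (hb : ∀ b, b * t ∈ 𝔪.map (algebraMap S B) → ∃ s ∉ 𝔫, s * b ∈ 𝔪.map (algebraMap S B)) :
    (∃ s ∉ 𝔫, ∀ x ∈ I, ∃ r, s * x = r * t) ∧ (∀ b, b * t = 0 → ∃ s ∉ 𝔫, s * b = 0) := by
  classical
  set J := 𝔪.map (algebraMap S B) with hJ
  let T : I := ⟨t, ht⟩
  -- Part (a)
  have hA : ∃ s ∉ 𝔫, ∀ x ∈ I, ∃ r, s * x = r * t := by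
    let W : Submodule B I := Submodule.span B {T} ⊔ J • ⊤
    have h1 : ∀ x : I, ∃ s ∉ 𝔫, s • x ∈ W := by
      intro x
      obtain ⟨s, hs, r, hr⟩ := ha x.1 x.2
      refine ⟨s, hs, ?_⟩
      have hmemI : s * x.1 - r * t ∈ I :=
        I.sub_mem (I.mul_mem_left _ x.2) (I.mul_mem_left _ ht)
      have h2 := mem_smul_top_of_mem_map_of_retraction I ρ hρ 𝔪 ⟨_, hmemI⟩ hr
      have h3 : s • x = r • T + ⟨_, hmemI⟩ := by
        apply Subtype.ext; simp [T]
      rw [h3]
      exact Submodule.add_mem _ (Submodule.mem_sup_left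
        (Submodule.smul_mem _ _ (Submodule.mem_span_singleton_self T)))
        (Submodule.mem_sup_right h2)
    obtain ⟨n, g, hg⟩ := Module.Finite.exists_fin (R := B) (M := I)
    choose σ hσ hσW using h1
    let s := ∏ i, σ (g i)
    have hs : s ∉ 𝔫 := by
      intro h
      obtain ⟨i, -, hi⟩ := (Ideal.IsPrime.prod_mem_iff).mp h
      exact hσ (g i) hi
    have h4 : ∀ x : I, s • x ∈ W := by
      intro x
      have hx : x ∈ Submodule.span B (Set.range g) := by rw [hg]; trivial
      refine Submodule.span_induction ?_ ?_ ?_ ?_ hx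
      · rintro _ ⟨i, rfl⟩
        have : s = (∏ j ∈ Finset.univ.erase i, σ (g j)) * σ (g i) := by
          rw [Finset.prod_erase_mul _ _ (Finset.mem_univ i)]
        rw [this, mul_smul]
        exact Submodule.smul_mem _ _ (hσW (g i))
      · simp
      · intro x y _ _ hx hy; rw [smul_add]; exact Submodule.add_mem _ hx hy
      · intro a x _ hx; rw [smul_comm]; exact Submodule.smul_mem _ _ hx
    have h5 : ∀ q : I ⧸ Submodule.span B {T}, s • q ∈ J • (⊤ : Submodule B (I ⧸ Submodule.span B {T})) := by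
      intro q
      obtain ⟨x, rfl⟩ := Submodule.Quotient.mk_surjective _ q
      have := Submodule.mem_map_of_mem (f := Submodule.mkQ (Submodule.span B {T})) (h4 x)
      rw [Submodule.map_sup, Submodule.map_smul'', Submodule.map_top, Submodule.range_mkQ] at this
      have hbot : Submodule.map (Submodule.mkQ (Submodule.span B {T})) (Submodule.span B {T}) = ⊥ := by
        rw [Submodule.mkQ_map_self]
      rw [hbot, bot_sup_eq] at this
      simpa using this
    obtain ⟨s', hs', hkill⟩ := exists_notMem_smul_eq_zero_of_smul_mem_smul 𝔫 J h𝔪 s hs h5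
    refine ⟨s', hs', fun x hx => ?_⟩
    have := hkill (Submodule.Quotient.mk ⟨x, hx⟩)
    rw [← Submodule.Quotient.mk_smul, Submodule.Quotient.mk_eq_zero,
      Submodule.mem_span_singleton] at this
    obtain ⟨r, hr⟩ := this
    exact ⟨r, by have := congrArg Subtype.val hr; simpa [T] using this.symm⟩
  refine ⟨hA, ?_⟩
  -- Part (b)
  obtain ⟨s', hs', hs'I⟩ := hA
  have : Module.Flat S I :=
    Module.Flat.of_retract (I.subtype.restrictScalars S) ρ (by ext x; simp [hρ])
  let K : Ideal B := LinearMap.ker (LinearMap.toSpanSingleton B B t)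
  have hK : ∀ b, b ∈ K ↔ b * t = 0 := by
    intro b; simp [K, LinearMap.toSpanSingleton_apply]
  have step1 : ∃ s₀ ∉ 𝔫, ∀ b ∈ K, s₀ * b ∈ J := by
    obtain ⟨n, g, hg⟩ :=
      Submodule.fg_iff_exists_fin_generating_family.mp (IsNoetherian.noetherian K)
    have h1 : ∀ i, ∃ s ∉ 𝔫, s * g i ∈ J := by
      intro i
      have : g i ∈ K := by rw [← hg]; exact Submodule.subset_span ⟨i, rfl⟩
      exact hb _ (by rw [(hK _).mp this]; exact J.zero_mem)
    choose σ hσ hσJ using h1
    refine ⟨∏ i, σ i, ?_, ?_⟩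
    · intro h
      obtain ⟨i, -, hi⟩ := Ideal.IsPrime.prod_mem_iff.mp h
      exact hσ i hi
    · intro b hb'
      rw [← hg] at hb'
      refine Submodule.span_induction ?_ ?_ ?_ ?_ hb'
      · rintro _ ⟨i, rfl⟩
        rw [← Finset.prod_erase_mul _ _ (Finset.mem_univ i), mul_assoc]
        exact J.mul_mem_left _ (hσJ i)
      · simp
      · intro x y _ _ hx hy; rw [mul_add]; exact J.add_mem hx hy
      · intro a x _ hx; rw [smul_eq_mul, mul_left_comm]; exact J.mul_mem_left _ hx
  obtain ⟨s₀, hs₀, hs₀K⟩ := step1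
  have step2 : ∀ b : K, (s' * s₀) • b ∈ J • (⊤ : Submodule B K) := by
    intro b
    have hb1 : s₀ * b.1 ∈ 𝔪 • Submodule.span S (Set.range (id : B → B)) := by
      rw [Set.range_id, Submodule.span_univ, Ideal.smul_top_eq_map]
      exact hs₀K b.1 b.2
    rw [Submodule.mem_ideal_smul_span_iff_exists_sum] at hb1
    obtain ⟨a, ha𝔪, hasum⟩ := hb1
    -- the relation in `I`
    let fS : a.support → S := fun i => a i.1
    let xI : a.support → I := fun i => (i.1 : B) • T
    have hrel : ∑ i : a.support, fS i • xI i = 0 := by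
      apply Subtype.ext
      have h0 : (s₀ * b.1) * t = 0 := by rw [mul_assoc, (hK _).mp b.2, mul_zero]
      rw [← hasum, Finsupp.sum, Finset.sum_mul, ← Finset.sum_coe_sort a.support] at h0
      rw [ZeroMemClass.coe_zero, ← h0, AddSubmonoidClass.coe_finsetSum]
      refine Finset.sum_congr rfl fun i _ => ?_
      simp [fS, xI, T, Algebra.smul_def, mul_assoc]
    have htriv : ∃ (k : ℕ) (α : a.support → Fin k → S) (y : Fin k → I),
        (∀ i, xI i = ∑ j, α i j • y j) ∧ ∀ j, ∑ i, fS i * α i j = 0 :=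
      Module.Flat.isTrivialRelation_of_sum_smul_eq_zero (R := S) (M := I) (f := fS) (x := xI) hrel
    obtain ⟨k, α, y, hxy, hα⟩ := htriv
    have hc : ∀ j, ∃ r, s' * (y j).1 = r * t := fun j => hs'I _ (y j).2
    choose c hc using hc
    have hκ : ∀ i : a.support, s' * (i.1 : B) - ∑ j, α i j • c j ∈ K := by
      intro i
      rw [hK, sub_mul, Finset.sum_mul]
      have h1 : (i.1 : B) * t = ∑ j, α i j • (y j).1 := by
        have := congrArg Subtype.val (hxy i)
        simpa [xI, T] using this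
      rw [mul_assoc, h1, Finset.mul_sum, sub_eq_zero]
      refine Finset.sum_congr rfl fun j _ => ?_
      rw [smul_mul_assoc, ← hc j, mul_smul_comm]
    have hsum : (s' * s₀) • b = ∑ i : a.support, a i.1 • (⟨_, hκ i⟩ : K) := by
      apply Subtype.ext
      have h0 : s' * (s₀ * b.1) = ∑ i : a.support, a i.1 • (s' * (i.1 : B)) := by
        rw [← hasum, Finsupp.sum, Finset.mul_sum, ← Finset.sum_coe_sort a.support]
        refine Finset.sum_congr rfl fun i _ => ?_
        simp
      have h1 : ∑ i : a.support, a i.1 • ∑ j, α i j • c j = 0 := by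
        simp_rw [Finset.smul_sum, smul_smul]
        rw [Finset.sum_comm]
        refine Finset.sum_eq_zero fun j _ => ?_
        rw [← Finset.sum_smul, hα j, zero_smul]
      simp only [Submodule.coe_smul_of_tower, smul_eq_mul, AddSubmonoidClass.coe_finsetSum,
        smul_sub]
      rw [Finset.sum_sub_distrib, h1, sub_zero, mul_assoc, h0]
    rw [hsum]
    refine Submodule.sum_mem _ fun i _ => ?_
    rw [← algebraMap_smul B (a i.1)]
    exact Submodule.smul_mem_smul (Ideal.mem_map_of_mem _ (ha𝔪 _)) Submodule.mem_top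
  have hs's₀ : s' * s₀ ∉ 𝔫 := fun h =>
    (Ideal.IsPrime.mem_or_mem inferInstance h).elim hs' hs₀
  obtain ⟨s'', hs'', hkill⟩ :=
    exists_notMem_smul_eq_zero_of_smul_mem_smul 𝔫 J h𝔪 (s' * s₀) hs's₀ step2
  intro b hbt
  refine ⟨s'', hs'', ?_⟩
  have := congrArg Subtype.val (hkill ⟨b, (hK b).mpr hbt⟩)
  simpa using this

end fibre

end Fermat.Agent.S25.TWIST.G1.H3108.D588.Dep5365
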