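/-
S25 library: (Inv).  Over an algebraically closed field `k`, let `S` be a finitely generated
`k`-algebra and `A` a finitely generated `k`-algebra which is a Dedekind domain, not a field.
An ideal `I` of `S ⊗[k] A` whose quotient is a finite projective `S`-module (a "relative
effective divisor of the affine curve `Spec A` over `Spec S`") is an invertible module.
Author: helper5365.  Complete proofs.
-/
import Fermat.Agent.S25.TWIST.G1.H3108.D588.FibreCriterion
import Fermat.Agent.S25.TWIST.G1.H3108.D588.DedekindLocal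

set_option autoImplicit false

namespace Fermat.Agent.S25.TWIST.G1.H3108.D588.Dep5365

open TensorProduct

section nullstellensatz

variable (k : Type*) [Field k] [IsAlgClosed k] {B : Type*} [CommRing B] [Algebra k B]
  [Algebra.FiniteType k B]

/-- Nullstellensatz: a maximal ideal of a finitely generated algebra over an algebraically
closed field is the kernel of a `k`-point. -/
theorem exists_algHom_ker_eq_of_isMaximal (P : Ideal B) [P.IsMaximal] :
    ∃ χ : B →ₐ[k] k, RingHom.ker χ.toRingHom = P := by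
  let _ : Field (B ⧸ P) := Ideal.Quotient.field P
  have : Algebra.FiniteType k (B ⧸ P) :=
    Algebra.FiniteType.of_surjective (Ideal.Quotient.mkₐ k P) Ideal.Quotient.mk_surjective
  have : Module.Finite k (B ⧸ P) := finite_of_finite_type_of_isJacobsonRing k (B ⧸ P)
  have hbij : Function.Bijective (algebraMap k (B ⧸ P)) :=
    IsAlgClosed.algebraMap_bijective_of_isIntegral
  let e : k ≃ₐ[k] (B ⧸ P) := AlgEquiv.ofBijective (Algebra.ofId k (B ⧸ P)) hbij
  refine ⟨e.symm.toAlgHom.comp (Ideal.Quotient.mkₐ k P), ?_⟩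
  ext x
  simp only [AlgHom.toRingHom_eq_coe, RingHom.mem_ker, RingHom.coe_coe, AlgHom.coe_comp,
    AlgEquiv.coe_toAlgHom, Function.comp_apply, Ideal.Quotient.mkₐ_eq_mk]
  rw [map_eq_zero_iff _ e.symm.injective, Ideal.Quotient.eq_zero_iff_mem]

end nullstellensatz

section main

variable (k : Type*) [Field k] [IsAlgClosed k]
  (S : Type*) [CommRing S] [Algebra k S] [Algebra.FiniteType k S]
  (A : Type*) [CommRing A] [Algebra k A] [Algebra.FiniteType k A] [IsDedekindDomain A]

/-- **(Inv)**: a relative effective divisor on an affine Dedekind curve is Cartier. -/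
theorem tensor_ideal_invertible (hA : ¬ IsField A) (I : Ideal (S ⊗[k] A))
    [Module.Finite S ((S ⊗[k] A) ⧸ I)] [Module.Projective S ((S ⊗[k] A) ⧸ I)] :
    Module.Invertible (S ⊗[k] A) I := by
  classical
  have hft : Algebra.FiniteType k (S ⊗[k] A) :=
    Algebra.FiniteType.trans (S := S) inferInstance (Algebra.FiniteType.baseChange S)
  have hnoeth : IsNoetherianRing (S ⊗[k] A) := Algebra.FiniteType.isNoetherianRing k _
  have : Module.FinitePresentation (S ⊗[k] A) I := Module.finitePresentation_of_finite _ _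
  -- the `S`-linear retraction onto `I`
  obtain ⟨σ, hσ⟩ := Module.projective_lifting_property
    ((Submodule.mkQ I).restrictScalars S : (S ⊗[k] A) →ₗ[S] (S ⊗[k] A) ⧸ I) LinearMap.id
    (Submodule.mkQ_surjective I)
  have hσ' : ∀ q, Submodule.mkQ I (σ q) = q := fun q => LinearMap.congr_fun hσ q
  have hmem : ∀ b : S ⊗[k] A, b - σ (Submodule.mkQ I b) ∈ I := by
    intro b
    rw [← Submodule.Quotient.mk_eq_zero, Submodule.Quotient.mk_sub]
    have := hσ' (Submodule.mkQ I b)
    rw [Submodule.mkQ_apply] at this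
    rw [this, Submodule.mkQ_apply, sub_self]
  let ρ : (S ⊗[k] A) →ₗ[S] I :=
    { toFun := fun b => ⟨b - σ (Submodule.mkQ I b), hmem b⟩
      map_add' := fun b b' => by
        apply Subtype.ext
        simp only [map_add, Submodule.coe_add]
        ring
      map_smul' := fun s b => by
        apply Subtype.ext
        have h1 : Submodule.mkQ I (s • b) = s • Submodule.mkQ I b := by
          simp only [Submodule.mkQ_apply]; rfl
        simp only [h1, map_smul, RingHom.id_apply, Submodule.coe_smul_of_tower, smul_sub] }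
  have hρ : ∀ x : I, ρ x = x := by
    intro x
    apply Subtype.ext
    have : Ideal.Quotient.mk I (x : S ⊗[k] A) = 0 := Ideal.Quotient.eq_zero_iff_mem.mpr x.2
    simp [ρ, this]
  apply ideal_invertible_of_locally_principal
  intro P _
  -- the point
  obtain ⟨χ, hχ⟩ := exists_algHom_ker_eq_of_isMaximal k P
  have hPχ : ∀ b, b ∈ P ↔ χ b = 0 := by
    intro b; rw [← hχ]; rfl
  let χS : S →ₐ[k] k := χ.comp (Algebra.TensorProduct.includeLeft : S →ₐ[k] S ⊗[k] A)
  let χA : A →ₐ[k] k := χ.comp (Algebra.TensorProduct.includeRight : A →ₐ[k] S ⊗[k] A)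
  let 𝔪 : Ideal S := RingHom.ker χS.toRingHom
  let π : (S ⊗[k] A) →ₐ[k] A :=
    (Algebra.TensorProduct.lid k A).toAlgHom.comp (Algebra.TensorProduct.map χS (AlgHom.id k A))
  have hπ_tmul : ∀ (s : S) (a : A), π (s ⊗ₜ a) = χS s • a := by
    intro s a; simp [π]
  have hχS_surj : Function.Surjective χS := by
    intro c; exact ⟨algebraMap k S c, by simp⟩
  have hπ_surj : Function.Surjective π := by
    intro a; exact ⟨1 ⊗ₜ a, by simp [hπ_tmul]⟩
  have hχπ : ∀ b, χ b = χA (π b) := by
    intro b
    induction b using TensorProduct.induction_on with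
    | zero => simp
    | tmul s a =>
      rw [hπ_tmul, map_smul, smul_eq_mul]
      have : (s ⊗ₜ[k] a : S ⊗[k] A) = (s ⊗ₜ 1) * (1 ⊗ₜ a) := by simp
      rw [this, map_mul]
      rfl
    | add x y hx hy => rw [map_add, map_add, map_add, hx, hy]
  have hker : RingHom.ker π.toRingHom = 𝔪.map (algebraMap S (S ⊗[k] A)) := by
    have h1 := Algebra.TensorProduct.rTensor_ker (R := k) (S := k) (C := A) χS hχS_surj
    have h2 : RingHom.ker π.toRingHom =
        RingHom.ker (Algebra.TensorProduct.map χS (AlgHom.id k A)) := by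
      ext b
      simp only [AlgHom.toRingHom_eq_coe, RingHom.mem_ker, RingHom.coe_coe, π, AlgHom.coe_comp,
        AlgEquiv.coe_toAlgHom, Function.comp_apply]
      exact map_eq_zero_iff _ (Algebra.TensorProduct.lid k A).injective
    rw [h2, h1]
    rfl
  have hπker : ∀ b, π b = 0 ↔ b ∈ 𝔪.map (algebraMap S (S ⊗[k] A)) := by
    intro b; rw [← hker]; rfl
  have h𝔪P : 𝔪.map (algebraMap S (S ⊗[k] A)) ≤ P := by
    rw [Ideal.map_le_iff_le_comap]
    intro s hs
    rw [Ideal.mem_comap, hPχ]
    exact hs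
  -- the fibre ideal
  let I₀ : Ideal A := I.map π.toRingHom
  have hI₀mem : ∀ a, a ∈ I₀ ↔ ∃ x ∈ I, π x = a := by
    intro a
    exact Ideal.mem_map_iff_of_surjective π.toRingHom hπ_surj
  have hI₀ : I₀ ≠ ⊥ := by
    intro hbot
    apply hA
    -- `A` is finite over `k`
    have hIker : ∀ x ∈ I, π x = 0 := by
      intro x hx
      have : π x ∈ I₀ := (hI₀mem _).mpr ⟨x, hx, rfl⟩
      rw [hbot] at this
      exact this
    obtain ⟨n, g, hg⟩ := Module.Finite.exists_fin (R := S) (M := (S ⊗[k] A) ⧸ I)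
    let πbar : (S ⊗[k] A) ⧸ I →+* A := Ideal.Quotient.lift I π.toRingHom hIker
    have hπbar_smul : ∀ (s : S) (q : (S ⊗[k] A) ⧸ I), πbar (s • q) = χS s • πbar q := by
      intro s q
      obtain ⟨b, rfl⟩ := Ideal.Quotient.mk_surjective q
      have h0 : s • (Ideal.Quotient.mk I b) = Ideal.Quotient.mk I (s • b) := rfl
      have : s • (Ideal.Quotient.mk I b) = Ideal.Quotient.mk I ((s ⊗ₜ[k] (1 : A)) * b) := by
        rw [h0, Algebra.smul_def, Algebra.TensorProduct.algebraMap_apply]
        rfl
      rw [this]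
      simp only [πbar, Ideal.Quotient.lift_mk, AlgHom.toRingHom_eq_coe, RingHom.coe_coe, map_mul,
        hπ_tmul]
      simp
    have hfin : Module.Finite k A := by
      refine ⟨⟨Finset.univ.image (fun i => πbar (g i)), ?_⟩⟩
      rw [eq_top_iff]
      intro a _
      obtain ⟨b, rfl⟩ := hπ_surj a
      have hb : Ideal.Quotient.mk I b ∈ Submodule.span S (Set.range g) := by rw [hg]; trivial
      have : π b = πbar (Ideal.Quotient.mk I b) := rfl
      rw [this]
      refine Submodule.span_induction ?_ ?_ ?_ ?_ hb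
      · rintro _ ⟨i, rfl⟩
        exact Submodule.subset_span (by simp)
      · simp
      · intro x y _ _ hx hy; rw [map_add]; exact Submodule.add_mem _ hx hy
      · intro s x _ hx; rw [hπbar_smul]; exact Submodule.smul_mem _ _ hx
    exact isField_of_isIntegral_of_isField' (R := k) (Field.toIsField k)
  have h𝔫₀ : RingHom.ker χA.toRingHom ≠ ⊤ := by
    intro h
    have : (1 : A) ∈ RingHom.ker χA.toRingHom := by rw [h]; trivial
    simp at this
  obtain ⟨t₀, ht₀, ht₀ne, hloc⟩ := dedekind_locally_principal I₀ hI₀ _ h𝔫₀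
  obtain ⟨t, ht, rfl⟩ := (hI₀mem t₀).mp ht₀
  have hcrit := fibre_criterion (S := S) I ρ hρ P 𝔪 h𝔪P t ht
    (by
      intro x hx
      obtain ⟨s₀, hs₀, r₀, hr₀⟩ := hloc (π x) ((hI₀mem _).mpr ⟨x, hx, rfl⟩)
      obtain ⟨s, rfl⟩ := hπ_surj s₀
      obtain ⟨r, rfl⟩ := hπ_surj r₀
      refine ⟨s, ?_, r, ?_⟩
      · rw [hPχ, hχπ]; exact hs₀
      · rw [← hπker, map_sub, map_mul, map_mul, hr₀, sub_self])
    (by
      intro b hb
      refine ⟨1, ?_, ?_⟩
      · rw [hPχ, map_one]; exact one_ne_zero
      · rw [one_mul, ← hπker]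
        rw [← hπker, map_mul] at hb
        exact (mul_eq_zero.mp hb).resolve_right ht₀ne)
  obtain ⟨⟨s, hs, hgen⟩, hreg⟩ := hcrit
  exact ⟨t, ht, fun x hx => ⟨s, hs, hgen x hx⟩, hreg⟩

end main

end Fermat.Agent.S25.TWIST.G1.H3108.D588.Dep5365
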