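/-
S25 A9 input (helper588): the diagonal ideal of `A ⊗[k] A` is an invertible module for a smooth
affine curve algebra `A` over an algebraically closed field `k`; in particular for the two chart
algebras of a `CurveData`.  (Input of the "graph ideal invertible for all `R`" step of A9.)

Glue of: helper5365's `Lib/TensorIdeal.lean` ((Inv)) and helper8365's `SC0/A2_h8365.lean` (Dedekind
and not a field), copied to `H588/Dep/` with namespaces renamed; `Core.lean` (helper5425) verbatim.
-/
import Fermat.Agent.S25.Core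
import Fermat.Agent.S25.TWIST.G1.H3108.D588.A2_h8365
import Fermat.Agent.S25.TWIST.G1.H3108.D588.TensorIdeal

set_option autoImplicit false

universe u

namespace Fermat.Agent.S25.TWIST.G1.H3108.D588

open scoped TensorProduct

section diag

variable (k : Type u) [Field k] [IsAlgClosed k] (A : Type u) [CommRing A] [IsDomain A]
  [Algebra k A] [Algebra.FiniteType k A]

/-- The quotient of `A ⊗[k] A` by the diagonal ideal is `A`, linearly over the left factor. -/
noncomputable def quotDiagEquiv :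
    ((A ⊗[k] A) ⧸ KaehlerDifferential.ideal k A) ≃ₗ[A] A :=
  (Ideal.quotientKerAlgEquivOfSurjective (f := Algebra.TensorProduct.lmul'' k (S := A))
    (fun a => ⟨a ⊗ₜ[k] 1, by simp [Algebra.TensorProduct.lmul'']⟩)).toLinearEquiv

/-- **Diagonal.**  The diagonal ideal of a smooth affine curve over an algebraically closed field
is an invertible module. -/
theorem diag_invertible
    (h : RingHom.Locally (RingHom.IsStandardSmoothOfRelativeDimension 1) (algebraMap k A)) :
    Module.Invertible (A ⊗[k] A) (KaehlerDifferential.ideal k A) := by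
  obtain ⟨hded, hnf⟩ := Dep8365.A2.isDedekindDomain_and_not_isField k A h
  have : Module.Finite A ((A ⊗[k] A) ⧸ KaehlerDifferential.ideal k A) :=
    Module.Finite.equiv (quotDiagEquiv k A).symm
  have : Module.Projective A ((A ⊗[k] A) ⧸ KaehlerDifferential.ideal k A) :=
    Module.Projective.of_equiv (quotDiagEquiv k A).symm
  exact Dep5365.tensor_ideal_invertible k A A hnf (KaehlerDifferential.ideal k A)

end diag

section curve

variable {k : Type u} [Field k] (𝒞 : CurveData k)

theorem curve_finiteType₁ : Algebra.FiniteType k 𝒞.A₁ := by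
  have h1 : Algebra.FiniteType k (Algebra.adjoin k ({𝒞.f} : Set 𝒞.A₁)) :=
    Algebra.FiniteType.adjoin_of_finite (Set.finite_singleton _)
  have := 𝒞.fin₁
  exact Algebra.FiniteType.trans h1 inferInstance

theorem curve_finiteType₂ : Algebra.FiniteType k 𝒞.A₂ := by
  have h1 : Algebra.FiniteType k (Algebra.adjoin k ({𝒞.g} : Set 𝒞.A₂)) :=
    Algebra.FiniteType.adjoin_of_finite (Set.finite_singleton _)
  have := 𝒞.fin₂
  exact Algebra.FiniteType.trans h1 inferInstance

variable [IsAlgClosed k]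

theorem curve_isDedekindDomain₁ : IsDedekindDomain 𝒞.A₁ :=
  have := 𝒞.dom₁
  have := curve_finiteType₁ 𝒞
  (Dep8365.A2.isDedekindDomain_and_not_isField k 𝒞.A₁ 𝒞.smooth₁).1

theorem curve_isDedekindDomain₂ : IsDedekindDomain 𝒞.A₂ :=
  have := 𝒞.dom₂
  have := curve_finiteType₂ 𝒞
  (Dep8365.A2.isDedekindDomain_and_not_isField k 𝒞.A₂ 𝒞.smooth₂).1

theorem curve_not_isField₁ : ¬ IsField 𝒞.A₁ :=
  have := 𝒞.dom₁
  have := curve_finiteType₁ 𝒞
  (Dep8365.A2.isDedekindDomain_and_not_isField k 𝒞.A₁ 𝒞.smooth₁).2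

theorem curve_not_isField₂ : ¬ IsField 𝒞.A₂ :=
  have := 𝒞.dom₂
  have := curve_finiteType₂ 𝒞
  (Dep8365.A2.isDedekindDomain_and_not_isField k 𝒞.A₂ 𝒞.smooth₂).2

/-- The diagonal ideal of `A₁ ⊗[k] A₁` is invertible. -/
theorem curve_diag_invertible₁ :
    Module.Invertible (𝒞.A₁ ⊗[k] 𝒞.A₁) (KaehlerDifferential.ideal k 𝒞.A₁) :=
  have := 𝒞.dom₁
  have := curve_finiteType₁ 𝒞
  diag_invertible k 𝒞.A₁ 𝒞.smooth₁

/-- The diagonal ideal of `A₂ ⊗[k] A₂` is invertible. -/
theorem curve_diag_invertible₂ :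
    Module.Invertible (𝒞.A₂ ⊗[k] 𝒞.A₂) (KaehlerDifferential.ideal k 𝒞.A₂) :=
  have := 𝒞.dom₂
  have := curve_finiteType₂ 𝒞
  diag_invertible k 𝒞.A₂ 𝒞.smooth₂

end curve

end Fermat.Agent.S25.TWIST.G1.H3108.D588
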