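/-
S25 library: nonzero ideals of a Dedekind domain are locally principal (elementwise form).
Author: helper5365.  Complete proofs.
-/
import Mathlib

set_option autoImplicit false

namespace Fermat.Agent.S25.TWIST.G1.H3108.D588.Dep5365

open scoped nonZeroDivisors

/-- In a Dedekind domain, a nonzero ideal `I₀` is generated, locally at any proper ideal `𝔫₀`,
by a single nonzero element `t₀ ∈ I₀`: every `x ∈ I₀` satisfies `s₀ * x = r₀ * t₀` with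
`s₀ ∉ 𝔫₀`. -/
theorem dedekind_locally_principal {A : Type*} [CommRing A] [IsDedekindDomain A]
    (I₀ : Ideal A) (hI₀ : I₀ ≠ ⊥) (𝔫₀ : Ideal A) (h𝔫₀ : 𝔫₀ ≠ ⊤) :
    ∃ t₀ ∈ I₀, t₀ ≠ 0 ∧ ∀ x ∈ I₀, ∃ s₀ ∉ 𝔫₀, ∃ r₀, s₀ * x = r₀ * t₀ := by
  classical
  let K := FractionRing A
  let J : FractionalIdeal A⁰ K := (I₀ : FractionalIdeal A⁰ K)
  have hJ : J ≠ 0 := FractionalIdeal.coeIdeal_ne_zero.mpr hI₀
  have hJJ : J * J⁻¹ = 1 := mul_inv_cancel₀ hJ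
  -- there are `x₀ ∈ I₀`, `y₀ ∈ J⁻¹` with `x₀ * y₀ ∉ 𝔫₀`
  have key : ∃ x₀ ∈ I₀, ∃ y₀ ∈ J⁻¹, ∃ z₀ : A, z₀ ∉ 𝔫₀ ∧
      algebraMap A K z₀ = algebraMap A K x₀ * y₀ := by
    by_contra hcon
    push Not at hcon
    have hle : J * J⁻¹ ≤ (𝔫₀ : FractionalIdeal A⁰ K) := by
      rw [FractionalIdeal.mul_le]
      intro i hi j hj
      obtain ⟨x₀, hx₀, rfl⟩ := (FractionalIdeal.mem_coeIdeal _).mp hi
      have h1 : algebraMap A K x₀ * j ∈ (1 : FractionalIdeal A⁰ K) := by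
        rw [← hJJ]; exact FractionalIdeal.mul_mem_mul hi hj
      obtain ⟨z₀, hz₀⟩ := (FractionalIdeal.mem_one_iff _).mp h1
      rw [FractionalIdeal.mem_coeIdeal]
      refine ⟨z₀, ?_, hz₀⟩
      by_contra hz
      exact hcon x₀ hx₀ j hj z₀ hz hz₀
    rw [hJJ] at hle
    have h1 : (1 : K) ∈ (𝔫₀ : FractionalIdeal A⁰ K) := hle (FractionalIdeal.one_mem_one _)
    obtain ⟨z, hz, hz1⟩ := (FractionalIdeal.mem_coeIdeal _).mp h1
    have : z = 1 := IsFractionRing.injective A K (by rw [hz1, map_one])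
    exact h𝔫₀ ((Ideal.eq_top_iff_one _).mpr (this ▸ hz))
  obtain ⟨x₀, hx₀, y₀, hy₀, z₀, hz₀, hxyz⟩ := key
  refine ⟨x₀, hx₀, ?_, ?_⟩
  · rintro rfl
    apply hz₀
    have : z₀ = 0 := IsFractionRing.injective A K (by rw [hxyz]; simp)
    rw [this]; exact 𝔫₀.zero_mem
  · intro x hx
    have h1 : y₀ * algebraMap A K x ∈ (1 : FractionalIdeal A⁰ K) :=
      (FractionalIdeal.mem_inv_iff hJ).mp hy₀ _ ((FractionalIdeal.mem_coeIdeal _).mpr ⟨x, hx, rfl⟩)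
    obtain ⟨r₀, hr₀⟩ := (FractionalIdeal.mem_one_iff _).mp h1
    refine ⟨z₀, hz₀, r₀, IsFractionRing.injective A K ?_⟩
    rw [map_mul, map_mul, hxyz, hr₀]
    ring

end Fermat.Agent.S25.TWIST.G1.H3108.D588.Dep5365
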